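import Fermat.Agent.S16.H33.LevelOneQ

/-!
# S16 (UPPER), package U2c: the evaluation `ev` on the curve `y² + a x y + y = x³`

`ev k P ∈ ℂ[a]` for a power series `P` (meant: the `q`-expansion of a level-one form of weight
`k`).  On level-one `q`-expansions it is additive, `ℂ`-linear, multiplicative
(`ev (k + l) (P * Q) = ev k P * ev l Q`), sends `E₄ ↦ a⁴ - 24 a`, `E₆ ↦ a⁶ - 36 a³ + 216`,
`Δ ↦ a³ - 27`, constants to constants, and it preserves every additive subgroup of
coefficients (`coeff_ev_mem`).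
-/

set_option autoImplicit false

namespace Fermat.Agent.S16.H33

open UpperHalfPlane ModularForm
open scoped MatrixGroups ModularForm

/-- The cast `ℤ[a] → ℂ[a]`. -/
noncomputable abbrev polyC (q : Polynomial ℤ) : Polynomial ℂ := q.map (Int.castRingHom ℂ)

/-- `c₄ = a⁴ - 24 a` of `y² + a x y + y = x³`. -/
noncomputable def c4Z : Polynomial ℤ := Polynomial.X ^ 4 - 24 * Polynomial.X

/-- `-c₆ = a⁶ - 36 a³ + 216` of `y² + a x y + y = x³`. -/
noncomputable def c6Z : Polynomial ℤ := Polynomial.X ^ 6 - 36 * Polynomial.X ^ 3 + 216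

/-- The discriminant `a³ - 27` of `y² + a x y + y = x³`. -/
noncomputable def dZ : Polynomial ℤ := Polynomial.X ^ 3 - 27

theorem c4Z_cube_sub_c6Z_sq : c4Z ^ 3 - c6Z ^ 2 = 1728 * dZ := by
  rw [c4Z, c6Z, dZ]
  ring

/-- The image of the normal monomial. -/
noncomputable def monoPolyZ (k : ℕ) : Polynomial ℤ :=
  if k % 4 = 0 then c4Z ^ (k / 4) else c4Z ^ ((k - 6) / 4) * c6Z

/-- The evaluation map in weight `k`, defined on all power series through the `Δ`-adic normal
form; meaningful on level-one `q`-expansions of weight `k`. -/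
noncomputable def ev : ℕ → PowerSeries ℂ → Polynomial ℂ
  | k, P =>
    if k % 2 = 1 ∨ k = 2 then 0
    else
      Polynomial.C (P.coeff 0) * polyC (monoPolyZ k) +
        if h : k < 12 then 0
        else polyC dZ *
          ev (k - 12) (divΔ (P - PowerSeries.C (P.coeff 0) * toC (monoZ k)))
termination_by k => k
decreasing_by omega

theorem ev_of_bad {k : ℕ} (h : k % 2 = 1 ∨ k = 2) (P : PowerSeries ℂ) : ev k P = 0 := by
  rw [ev, if_pos h]

theorem ev_of_lt {k : ℕ} (h : ¬(k % 2 = 1 ∨ k = 2)) (h12 : k < 12) (P : PowerSeries ℂ) :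
    ev k P = Polynomial.C (P.coeff 0) * polyC (monoPolyZ k) := by
  rw [ev, if_neg h, dif_pos h12, add_zero]

theorem ev_of_ge {k : ℕ} (h : ¬(k % 2 = 1 ∨ k = 2)) (h12 : 12 ≤ k) (P : PowerSeries ℂ) :
    ev k P = Polynomial.C (P.coeff 0) * polyC (monoPolyZ k) + polyC dZ *
      ev (k - 12) (divΔ (P - PowerSeries.C (P.coeff 0) * toC (monoZ k))) := by
  rw [ev, if_neg h, dif_neg (by omega)]

theorem ev_zero (k : ℕ) : ev k 0 = 0 := by
  induction k using Nat.strong_induction_on with
  | _ k ih =>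
    by_cases h : k % 2 = 1 ∨ k = 2
    · exact ev_of_bad h _
    rcases lt_or_ge k 12 with h12 | h12
    · rw [ev_of_lt h h12]
      simp
    · rw [ev_of_ge h h12]
      simp [divΔ_zero, ih (k - 12) (by omega)]

theorem ev_add (k : ℕ) (P Q : PowerSeries ℂ) : ev k (P + Q) = ev k P + ev k Q := by
  induction k using Nat.strong_induction_on generalizing P Q with
  | _ k ih =>
    by_cases h : k % 2 = 1 ∨ k = 2
    · rw [ev_of_bad h, ev_of_bad h, ev_of_bad h, add_zero]
    rcases lt_or_ge k 12 with h12 | h12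
    · rw [ev_of_lt h h12, ev_of_lt h h12, ev_of_lt h h12, map_add, map_add, add_mul]
    · rw [ev_of_ge h h12, ev_of_ge h h12 P, ev_of_ge h h12 Q]
      have harg : P + Q - PowerSeries.C ((P + Q).coeff 0) * toC (monoZ k) =
          (P - PowerSeries.C (P.coeff 0) * toC (monoZ k)) +
            (Q - PowerSeries.C (Q.coeff 0) * toC (monoZ k)) := by
        rw [map_add, map_add]
        ring
      rw [harg, divΔ_add, ih (k - 12) (by omega), map_add, map_add]
      ring

theorem ev_C_mul (k : ℕ) (c : ℂ) (P : PowerSeries ℂ) :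
    ev k (PowerSeries.C c * P) = Polynomial.C c * ev k P := by
  induction k using Nat.strong_induction_on generalizing P with
  | _ k ih =>
    by_cases h : k % 2 = 1 ∨ k = 2
    · rw [ev_of_bad h, ev_of_bad h, mul_zero]
    rcases lt_or_ge k 12 with h12 | h12
    · rw [ev_of_lt h h12, ev_of_lt h h12, PowerSeries.coeff_C_mul, map_mul, mul_assoc]
    · rw [ev_of_ge h h12, ev_of_ge h h12 P]
      have harg : PowerSeries.C c * P -
          PowerSeries.C ((PowerSeries.C c * P).coeff 0) * toC (monoZ k) =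
          PowerSeries.C c * (P - PowerSeries.C (P.coeff 0) * toC (monoZ k)) := by
        rw [PowerSeries.coeff_C_mul, map_mul]
        ring
      rw [harg, divΔ_C_mul, ih (k - 12) (by omega), PowerSeries.coeff_C_mul, map_mul]
      ring

theorem ev_neg (k : ℕ) (P : PowerSeries ℂ) : ev k (-P) = -ev k P := by
  have h := ev_C_mul k (-1) P
  rw [map_neg, map_one, neg_one_mul, map_neg, map_one, neg_one_mul] at h
  exact h

theorem ev_sub (k : ℕ) (P Q : PowerSeries ℂ) : ev k (P - Q) = ev k P - ev k Q := by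
  rw [sub_eq_add_neg, ev_add, ev_neg, ← sub_eq_add_neg]

/-- `ev` of a series in normal form. -/
theorem ev_normal {k : ℕ} (h : ¬(k % 2 = 1 ∨ k = 2)) (c : ℂ) (P' : PowerSeries ℂ) :
    ev k (PowerSeries.C c * toC (monoZ k) + PowerSeries.X * toC tau1Z * P') =
      Polynomial.C c * polyC (monoPolyZ k) +
        if k < 12 then 0 else polyC dZ * ev (k - 12) P' := by
  have h0 : (PowerSeries.C c * toC (monoZ k) + PowerSeries.X * toC tau1Z * P').coeff 0 = c := by
    rw [map_add, PowerSeries.coeff_C_mul, coeff_zero_toC_monoZ, mul_one, mul_assoc,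
      PowerSeries.coeff_zero_X_mul, add_zero]
  rcases lt_or_ge k 12 with h12 | h12
  · rw [ev_of_lt h h12, h0, if_pos h12, add_zero]
  · rw [ev_of_ge h h12, h0, if_neg (by omega), add_sub_cancel_left, divΔ_mul]

/-- `ev (Δ * P') = (a³ - 27) * ev P'`. -/
theorem ev_delta_mul (k : ℕ) (P' : PowerSeries ℂ) :
    ev (k + 12) (PowerSeries.X * toC tau1Z * P') = polyC dZ * ev k P' := by
  by_cases hodd : k % 2 = 1
  · rw [ev_of_bad (Or.inl (by omega)), ev_of_bad (Or.inl hodd), mul_zero]
  · have h : ¬((k + 12) % 2 = 1 ∨ k + 12 = 2) := by omega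
    rw [ev_of_ge h (by omega)]
    have h0 : (PowerSeries.X * toC tau1Z * P').coeff 0 = 0 := by
      rw [mul_assoc, PowerSeries.coeff_zero_X_mul]
    rw [h0, map_zero, map_zero, zero_mul, zero_mul, sub_zero, zero_add, divΔ_mul,
      Nat.add_sub_cancel]

/-! ### Monomials -/

theorem toC_e4Z_cube_sub : toC e4Z ^ 3 - toC e6Z ^ 2 =
    PowerSeries.C (1728 : ℂ) * (PowerSeries.X * toC tau1Z) := by
  have h1728 : (1728 : PowerSeries ℤ) = PowerSeries.C (1728 : ℤ) := by simp
  have h := congrArg toC e4Z_cube_sub_e6Z_sq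
  rw [h1728] at h
  simp only [toC, map_sub, map_pow, map_mul, PowerSeries.map_X, PowerSeries.map_C] at h
  rw [h]
  simp

theorem polyC_c4Z_cube_sub : polyC c4Z ^ 3 - polyC c6Z ^ 2 =
    Polynomial.C (1728 : ℂ) * polyC dZ := by
  have h1728 : (1728 : Polynomial ℤ) = Polynomial.C (1728 : ℤ) := by simp
  have h := congrArg polyC c4Z_cube_sub_c6Z_sq
  rw [h1728] at h
  simp only [polyC, Polynomial.map_sub, Polynomial.map_pow, Polynomial.map_mul,
    Polynomial.map_C] at h
  rw [h]
  simp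

/-- The normal monomial as a product of powers of `E₄`, `E₆`. -/
theorem exists_monoZ_eq {k : ℕ} (h : ¬(k % 2 = 1 ∨ k = 2)) :
    ∃ α β : ℕ, k = 4 * α + 6 * β ∧ toC (monoZ k) = toC e4Z ^ α * toC e6Z ^ β ∧
      polyC (monoPolyZ k) = polyC c4Z ^ α * polyC c6Z ^ β := by
  by_cases h4 : k % 4 = 0
  · refine ⟨k / 4, 0, by omega, ?_, ?_⟩
    · rw [monoZ, if_pos h4, toC, map_pow, pow_zero, mul_one]
    · rw [monoPolyZ, if_pos h4, polyC, Polynomial.map_pow, pow_zero, mul_one]
  · refine ⟨(k - 6) / 4, 1, by omega, ?_, ?_⟩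
    · rw [monoZ, if_neg h4, toC, map_mul, map_pow, pow_one]
    · rw [monoPolyZ, if_neg h4, polyC, Polynomial.map_mul, Polynomial.map_pow, pow_one]

theorem ev_mono_zero (a : ℕ) : ev (4 * a) (toC e4Z ^ a) = polyC c4Z ^ a := by
  have h : ¬((4 * a) % 2 = 1 ∨ 4 * a = 2) := by omega
  have h4 : (4 * a) % 4 = 0 := by omega
  have hm : toC (monoZ (4 * a)) = toC e4Z ^ a := by
    rw [monoZ, if_pos h4, toC, map_pow, Nat.mul_div_cancel_left a (by norm_num)]
  have hp : polyC (monoPolyZ (4 * a)) = polyC c4Z ^ a := by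
    rw [monoPolyZ, if_pos h4, polyC, Polynomial.map_pow, Nat.mul_div_cancel_left a (by norm_num)]
  have h1 := ev_normal h 1 0
  rw [hm, hp, mul_zero, add_zero, map_one, one_mul, map_one, one_mul, ev_zero, mul_zero,
    ite_self, add_zero] at h1
  exact h1

theorem ev_mono_one (a : ℕ) : ev (4 * a + 6) (toC e4Z ^ a * toC e6Z) =
    polyC c4Z ^ a * polyC c6Z := by
  have h : ¬((4 * a + 6) % 2 = 1 ∨ 4 * a + 6 = 2) := by omega
  have h4 : ¬ (4 * a + 6) % 4 = 0 := by omega
  have hd : (4 * a + 6 - 6) / 4 = a := by omega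
  have hm : toC (monoZ (4 * a + 6)) = toC e4Z ^ a * toC e6Z := by
    rw [monoZ, if_neg h4, toC, map_mul, map_pow, hd]
  have hp : polyC (monoPolyZ (4 * a + 6)) = polyC c4Z ^ a * polyC c6Z := by
    rw [monoPolyZ, if_neg h4, polyC, Polynomial.map_mul, Polynomial.map_pow, hd]
  have h1 := ev_normal h 1 0
  rw [hm, hp, mul_zero, add_zero, map_one, one_mul, map_one, one_mul, ev_zero, mul_zero,
    ite_self, add_zero] at h1
  exact h1

/-- `ev (E₄^a E₆^b) = c₄^a c₆^b` for all `a`, `b`. -/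
theorem ev_mono (b : ℕ) : ∀ a : ℕ, ev (4 * a + 6 * b) (toC e4Z ^ a * toC e6Z ^ b) =
    polyC c4Z ^ a * polyC c6Z ^ b := by
  induction b using Nat.strong_induction_on with
  | _ b ih =>
    intro a
    rcases b with _ | _ | b
    · simpa using ev_mono_zero a
    · simpa using ev_mono_one a
    · have hser : toC e4Z ^ a * toC e6Z ^ (b + 1 + 1) =
          toC e4Z ^ (a + 3) * toC e6Z ^ b - PowerSeries.C (1728 : ℂ) *
            (PowerSeries.X * toC tau1Z * (toC e4Z ^ a * toC e6Z ^ b)) := by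
        have h := toC_e4Z_cube_sub
        have h2 : toC e6Z ^ 2 = toC e4Z ^ 3 -
            PowerSeries.C (1728 : ℂ) * (PowerSeries.X * toC tau1Z) := by
          rw [← h]
          ring
        rw [show b + 1 + 1 = b + 2 by ring, pow_add, h2]
        ring
      have hw1 : 4 * a + 6 * (b + 1 + 1) = 4 * (a + 3) + 6 * b := by ring
      have hw2 : 4 * a + 6 * (b + 1 + 1) = (4 * a + 6 * b) + 12 := by ring
      rw [hser, ev_sub, ev_C_mul]
      conv_lhs => rw [hw1]
      rw [ih b (by omega) (a + 3)]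
      conv_lhs => rw [show 4 * (a + 3) + 6 * b = (4 * a + 6 * b) + 12 by ring]
      rw [ev_delta_mul, ih b (by omega) a]
      have hp : polyC c6Z ^ 2 = polyC c4Z ^ 3 - Polynomial.C (1728 : ℂ) * polyC dZ := by
        rw [← polyC_c4Z_cube_sub]
        ring
      rw [show b + 1 + 1 = b + 2 by ring, pow_add (polyC c6Z) b 2, hp]
      ring

/-! ### Multiplicativity -/

theorem IsQ.eq_zero_of_bad {k : ℕ} {P : PowerSeries ℂ} (hP : IsQ k P)
    (h : k % 2 = 1 ∨ k = 2) : P = 0 := by
  rcases h with h | h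
  · exact hP.eq_zero_of_odd (Nat.odd_iff.mpr h)
  · subst h
    exact hP.eq_zero_of_two

/-- `ev` of a level-one `q`-expansion, through its normal form. -/
theorem IsQ.exists_ev_decomp {k : ℕ} {P : PowerSeries ℂ} (hP : IsQ k P)
    (h : ¬(k % 2 = 1 ∨ k = 2)) :
    ∃ (c : ℂ) (α β : ℕ) (P' : PowerSeries ℂ), k = 4 * α + 6 * β ∧
      (12 ≤ k → IsQ (k - 12) P') ∧ (k < 12 → P' = 0) ∧
      P = PowerSeries.C c * (toC e4Z ^ α * toC e6Z ^ β) + PowerSeries.X * toC tau1Z * P' ∧
      ev k P = Polynomial.C c * (polyC c4Z ^ α * polyC c6Z ^ β) +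
        if k < 12 then 0 else polyC dZ * ev (k - 12) P' := by
  have hk : Even k := Nat.even_iff.mpr (by omega)
  obtain ⟨P', h12, hlt, hP'⟩ := hP.exists_decomp hk (by omega)
  obtain ⟨α, β, hαβ, hm, hp⟩ := exists_monoZ_eq h
  refine ⟨P.coeff 0, α, β, P', hαβ, h12, hlt, ?_, ?_⟩
  · rw [← hm]
    exact hP'
  · rw [← hp, ← ev_normal h, ← hP']

/-- Claim A: multiplicativity against a monomial. -/
theorem ev_mul_mono (a b : ℕ) : ∀ (k : ℕ) {P : PowerSeries ℂ}, IsQ k P →
    ev (k + (4 * a + 6 * b)) (P * (toC e4Z ^ a * toC e6Z ^ b)) =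
      ev k P * (polyC c4Z ^ a * polyC c6Z ^ b) := by
  intro k
  induction k using Nat.strong_induction_on with
  | _ k ih =>
    intro P hP
    by_cases h : k % 2 = 1 ∨ k = 2
    · rw [hP.eq_zero_of_bad h, zero_mul, ev_zero, ev_zero, zero_mul]
    obtain ⟨c, α, β, P', hαβ, h12, hlt, hPeq, hev⟩ := hP.exists_ev_decomp h
    have hprod : P * (toC e4Z ^ a * toC e6Z ^ b) =
        PowerSeries.C c * (toC e4Z ^ (α + a) * toC e6Z ^ (β + b)) +
          PowerSeries.X * toC tau1Z * (P' * (toC e4Z ^ a * toC e6Z ^ b)) := by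
      rw [hPeq, pow_add, pow_add]
      ring
    rw [hprod, ev_add, ev_C_mul, hev]
    have hw : k + (4 * a + 6 * b) = 4 * (α + a) + 6 * (β + b) := by omega
    have h1 : ev (k + (4 * a + 6 * b)) (toC e4Z ^ (α + a) * toC e6Z ^ (β + b)) =
        polyC c4Z ^ (α + a) * polyC c6Z ^ (β + b) := by
      rw [hw]
      exact ev_mono _ _
    rw [h1]
    rcases lt_or_ge k 12 with hk12 | hk12
    · rw [hlt hk12, zero_mul, mul_zero, ev_zero, if_pos hk12, pow_add, pow_add]
      ring
    · have hw2 : k + (4 * a + 6 * b) = (k - 12 + (4 * a + 6 * b)) + 12 := by omega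
      have h2 : ev (k + (4 * a + 6 * b))
          (PowerSeries.X * toC tau1Z * (P' * (toC e4Z ^ a * toC e6Z ^ b))) =
          polyC dZ * (ev (k - 12) P' * (polyC c4Z ^ a * polyC c6Z ^ b)) := by
        rw [hw2, ev_delta_mul, ih (k - 12) (by omega) (h12 hk12)]
      rw [h2, if_neg (by omega), pow_add, pow_add]
      ring

/-- **Multiplicativity of `ev`** on level-one `q`-expansions. -/
theorem ev_mul : ∀ (l : ℕ) {Q : PowerSeries ℂ}, IsQ l Q → ∀ {k : ℕ} {P : PowerSeries ℂ},
    IsQ k P → ev (k + l) (P * Q) = ev k P * ev l Q := by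
  intro l
  induction l using Nat.strong_induction_on with
  | _ l ih =>
    intro Q hQ k P hP
    by_cases h : l % 2 = 1 ∨ l = 2
    · rw [hQ.eq_zero_of_bad h, mul_zero, ev_zero, ev_zero, mul_zero]
    obtain ⟨d, α, β, Q', hαβ, h12, hlt, hQeq, hev⟩ := hQ.exists_ev_decomp h
    have hprod : P * Q = PowerSeries.C d * (P * (toC e4Z ^ α * toC e6Z ^ β)) +
        PowerSeries.X * toC tau1Z * (P * Q') := by
      rw [hQeq]
      ring
    have h1 : ev (k + l) (P * (toC e4Z ^ α * toC e6Z ^ β)) =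
        ev k P * (polyC c4Z ^ α * polyC c6Z ^ β) := by
      rw [hαβ]
      exact ev_mul_mono α β k hP
    rw [hprod, ev_add, ev_C_mul, h1, hev]
    rcases lt_or_ge l 12 with hl12 | hl12
    · rw [hlt hl12, mul_zero, mul_zero, ev_zero, if_pos hl12]
      ring
    · have hw2 : k + l = (k + (l - 12)) + 12 := by omega
      have h2 : ev (k + l) (PowerSeries.X * toC tau1Z * (P * Q')) =
          polyC dZ * (ev k P * ev (l - 12) Q') := by
        rw [hw2, ev_delta_mul, ih (l - 12) (by omega) (h12 hl12) hP]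
      rw [h2, if_neg (by omega)]
      ring

/-! ### Special values -/

theorem ev_C (c : ℂ) : ev 0 (PowerSeries.C c) = Polynomial.C c := by
  rw [ev_of_lt (by omega) (by omega), PowerSeries.coeff_zero_eq_constantCoeff_apply,
    PowerSeries.constantCoeff_C, monoPolyZ]
  simp

theorem ev_one : ev 0 1 = 1 := by
  have h := ev_C 1
  rwa [map_one, map_one] at h

theorem ev_e4 : ev 4 (toC e4Z) = polyC c4Z := by
  have h := ev_mono 0 1
  simpa using h

theorem ev_e6 : ev 6 (toC e6Z) = polyC c6Z := by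
  have h := ev_mono 1 0
  simpa using h

theorem ev_delta : ev 12 (PowerSeries.X * toC tau1Z) = polyC dZ := by
  have h := ev_delta_mul 0 1
  rwa [mul_one, ev_one, mul_one, zero_add] at h

/-! ### Integrality -/

theorem coeff_polyC_mul_mem (A : AddSubgroup ℂ) (q : Polynomial ℤ) (r : Polynomial ℂ)
    (h : ∀ i, r.coeff i ∈ A) (n : ℕ) : (polyC q * r).coeff n ∈ A := by
  rw [Polynomial.coeff_mul]
  refine A.sum_mem fun x _ => ?_
  rw [Polynomial.coeff_map, eq_intCast, ← zsmul_eq_mul]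
  exact A.zsmul_mem (h _) _

theorem coeff_C_mul_polyC_mem (A : AddSubgroup ℂ) (q : Polynomial ℤ) {c : ℂ} (hc : c ∈ A)
    (n : ℕ) : (Polynomial.C c * polyC q).coeff n ∈ A := by
  rw [Polynomial.coeff_C_mul, Polynomial.coeff_map, eq_intCast, mul_comm, ← zsmul_eq_mul]
  exact A.zsmul_mem hc _

/-- **Integrality of `ev`.** If all coefficients of `P` lie in an additive subgroup `A ⊆ ℂ`, so
do all coefficients of `ev k P`. -/
theorem coeff_ev_mem (A : AddSubgroup ℂ) : ∀ (k : ℕ) (P : PowerSeries ℂ),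
    (∀ n, P.coeff n ∈ A) → ∀ i, (ev k P).coeff i ∈ A := by
  intro k
  induction k using Nat.strong_induction_on with
  | _ k ih =>
    intro P hP i
    by_cases h : k % 2 = 1 ∨ k = 2
    · rw [ev_of_bad h]
      simp
    rcases lt_or_ge k 12 with h12 | h12
    · rw [ev_of_lt h h12]
      exact coeff_C_mul_polyC_mem A _ (hP 0) i
    · rw [ev_of_ge h h12, Polynomial.coeff_add]
      refine A.add_mem (coeff_C_mul_polyC_mem A _ (hP 0) i) (coeff_polyC_mul_mem A _ _ ?_ i)
      refine ih (k - 12) (by omega) _ fun n => coeff_divΔ_mem A _ n fun j _ => ?_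
      rw [map_sub]
      exact A.sub_mem (hP j) (coeff_C_mul_toC_mem A _ (hP 0) j)

/-! ### Convenience -/

theorem ev_smul (k : ℕ) (c : ℂ) (P : PowerSeries ℂ) : ev k (c • P) = c • ev k P := by
  rw [PowerSeries.smul_eq_C_mul, ev_C_mul, Polynomial.smul_eq_C_mul]

theorem ev_sum {ι : Type*} (k : ℕ) (s : Finset ι) (F : ι → PowerSeries ℂ) :
    ev k (∑ i ∈ s, F i) = ∑ i ∈ s, ev k (F i) := by
  classical
  induction s using Finset.induction_on with
  | empty => simp [ev_zero]
  | insert i s hi ih => rw [Finset.sum_insert hi, Finset.sum_insert hi, ev_add, ih]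

theorem ev_pow {k : ℕ} {P : PowerSeries ℂ} (hP : IsQ k P) (n : ℕ) :
    ev (n * k) (P ^ n) = ev k P ^ n := by
  induction n with
  | zero => simpa using ev_one
  | succ n ih =>
    rw [pow_succ, pow_succ, ← ih, ← ev_mul k hP (hP.pow n)]
    congr 1
    ring

/-- Multiplicativity with the weight of the product given separately. -/
theorem ev_mul' {k l m : ℕ} {P Q : PowerSeries ℂ} (hP : IsQ k P) (hQ : IsQ l Q)
    (hm : m = k + l) : ev m (P * Q) = ev k P * ev l Q := by
  subst hm
  exact ev_mul l hQ hP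

/-- Form version of `ev`. -/
noncomputable def evForm {k : ℕ} (f : ModularForm 𝒮ℒ (k : ℤ)) : Polynomial ℂ :=
  ev k (qExpansion 1 f)

theorem isQ_qExpansion {k : ℕ} (f : ModularForm 𝒮ℒ (k : ℤ)) : IsQ k (qExpansion 1 f) := ⟨f, rfl⟩

/-- If the `q`-coefficients `a_n`, `n ≤ k / 12`, of a level-one form lie in an additive subgroup
`A`, then all coefficients of its evaluation lie in `A`. -/
theorem coeff_evForm_mem (A : AddSubgroup ℂ) {k : ℕ} (f : ModularForm 𝒮ℒ (k : ℤ))
    (h : ∀ n ≤ k / 12, (qExpansion 1 f).coeff n ∈ A) (i : ℕ) : (evForm f).coeff i ∈ A :=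
  coeff_ev_mem A k _ (coeff_mem_of_forall_le A f h) i

end Fermat.Agent.S16.H33
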