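import Mathlib
import Fermat.Agent.S22.H45.DeltaInt

/-!
# S16 (UPPER), package U2: level-one modular forms through their `q`-expansions

Everything is phrased for power series, so that no dependent weights occur downstream.

* `IsQ k P` : `P` is the `q`-expansion of a level-one modular form of weight `k`.
* closure properties (`add`, `smul`, `mul`, `pow`), the Eisenstein series, constants;
* `IsQ.exists_decomp` : `P = c • M_k + X * T₁ * P'` with `P'` of weight `k - 12`.
-/

set_option autoImplicit false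

namespace Fermat.Agent.S16.H33

open UpperHalfPlane ModularForm EisensteinSeries
open scoped MatrixGroups ModularForm

/-- The cast `ℤ⟦X⟧ → ℂ⟦X⟧`. -/
noncomputable abbrev toC (S : PowerSeries ℤ) : PowerSeries ℂ := S.map (Int.castRingHom ℂ)

/-- The integral `q`-series of `E₄`. -/
noncomputable def e4Z : PowerSeries ℤ := 1 + 240 * S22.H45.sigSer 3

/-- The integral `q`-series of `E₆`. -/
noncomputable def e6Z : PowerSeries ℤ := 1 - 504 * S22.H45.sigSer 5

/-- The integral `q`-series of `Δ / q`. -/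
noncomputable def tau1Z : PowerSeries ℤ := S22.H45.tauSer1

theorem constantCoeff_tau1Z : PowerSeries.constantCoeff tau1Z = 1 :=
  S22.H45.constantCoeff_tauSer1

/-- `P` is the `q`-expansion of a level-one modular form of weight `k`. -/
def IsQ (k : ℕ) (P : PowerSeries ℂ) : Prop :=
  ∃ f : ModularForm 𝒮ℒ (k : ℤ), qExpansion 1 f = P

theorem isQ_zero (k : ℕ) : IsQ k 0 :=
  ⟨0, (ModularForm.qExpansion_eq_zero_iff one_pos one_mem_strictPeriods_SL _).mpr rfl⟩

theorem IsQ.add {k : ℕ} {P Q : PowerSeries ℂ} (hP : IsQ k P) (hQ : IsQ k Q) : IsQ k (P + Q) := by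
  obtain ⟨f, rfl⟩ := hP
  obtain ⟨g, rfl⟩ := hQ
  exact ⟨f + g, by
    rw [FunLike.coe_add]
    exact ModularForm.qExpansion_add one_pos one_mem_strictPeriods_SL f g⟩

theorem IsQ.sub {k : ℕ} {P Q : PowerSeries ℂ} (hP : IsQ k P) (hQ : IsQ k Q) : IsQ k (P - Q) := by
  obtain ⟨f, rfl⟩ := hP
  obtain ⟨g, rfl⟩ := hQ
  exact ⟨f - g, by
    rw [FunLike.coe_sub]
    exact ModularForm.qExpansion_sub one_pos one_mem_strictPeriods_SL f g⟩

theorem IsQ.smul {k : ℕ} {P : PowerSeries ℂ} (c : ℂ) (hP : IsQ k P) : IsQ k (c • P) := by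
  obtain ⟨f, rfl⟩ := hP
  exact ⟨c • f, by
    rw [FunLike.coe_smul]
    exact ModularForm.qExpansion_smul one_pos one_mem_strictPeriods_SL c f⟩

theorem IsQ.C_mul {k : ℕ} {P : PowerSeries ℂ} (c : ℂ) (hP : IsQ k P) :
    IsQ k (PowerSeries.C c * P) := by
  rw [← PowerSeries.smul_eq_C_mul]
  exact hP.smul c

theorem IsQ.mul {k l : ℕ} {P Q : PowerSeries ℂ} (hP : IsQ k P) (hQ : IsQ l Q) :
    IsQ (k + l) (P * Q) := by
  obtain ⟨f, rfl⟩ := hP
  obtain ⟨g, rfl⟩ := hQ
  refine ⟨ModularForm.mcast (by push_cast; ring) (f.mul g), ?_⟩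
  rw [ModularForm.coe_mcast]
  exact ModularForm.qExpansion_mul one_pos one_mem_strictPeriods_SL f g

theorem isQ_one : IsQ 0 1 :=
  ⟨ModularForm.mcast (by simp) (1 : ModularForm 𝒮ℒ 0), by
    rw [ModularForm.coe_mcast]
    exact ModularForm.qExpansion_one⟩

theorem isQ_C (c : ℂ) : IsQ 0 (PowerSeries.C c) := by
  have h := isQ_one.C_mul c
  rwa [mul_one] at h

theorem IsQ.congr {k l : ℕ} {P : PowerSeries ℂ} (hP : IsQ k P) (h : k = l) : IsQ l P := h ▸ hP

theorem IsQ.pow {k : ℕ} {P : PowerSeries ℂ} (hP : IsQ k P) (n : ℕ) : IsQ (n * k) (P ^ n) := by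
  induction n with
  | zero => simpa using isQ_one
  | succ n ih =>
    rw [pow_succ]
    exact (ih.mul hP).congr (by ring)

theorem isQ_e4 : IsQ 4 (toC e4Z) :=
  ⟨ModularForm.mcast (by norm_num) E₄, by
    rw [ModularForm.coe_mcast, e4Z]
    exact S22.H45.qExpansion_E4_eq⟩

theorem isQ_e6 : IsQ 6 (toC e6Z) :=
  ⟨ModularForm.mcast (by norm_num) E₆, by
    rw [ModularForm.coe_mcast, e6Z]
    exact S22.H45.qExpansion_E6_eq⟩

theorem IsQ.eq_C {P : PowerSeries ℂ} (hP : IsQ 0 P) : P = PowerSeries.C (P.coeff 0) := by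
  obtain ⟨f, rfl⟩ := hP
  obtain ⟨c, hc⟩ := ModularFormClass.levelOne_weight_zero_const
    (ModularForm.mcast (show ((0 : ℕ) : ℤ) = 0 by simp) f)
  rw [ModularForm.coe_mcast] at hc
  have h1 : qExpansion 1 (f : ℍ → ℂ) = PowerSeries.C c := by
    have hfun : (f : ℍ → ℂ) = c • ((1 : ModularForm 𝒮ℒ 0) : ℍ → ℂ) := by
      rw [hc]
      funext z
      simp
    rw [hfun, ModularForm.qExpansion_smul one_pos one_mem_strictPeriods_SL c
      (1 : ModularForm 𝒮ℒ 0), ModularForm.qExpansion_one, PowerSeries.smul_eq_C_mul, mul_one]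
  rw [h1]
  simp

theorem IsQ.eq_zero_of_odd {k : ℕ} {P : PowerSeries ℂ} (hk : Odd k) (hP : IsQ k P) : P = 0 := by
  obtain ⟨f, rfl⟩ := hP
  rw [ModularForm.levelOne_odd_weight_eq_zero (by exact_mod_cast hk) f]
  exact (ModularForm.qExpansion_eq_zero_iff one_pos one_mem_strictPeriods_SL _).mpr rfl

theorem IsQ.eq_zero_of_two {P : PowerSeries ℂ} (hP : IsQ 2 P) : P = 0 := by
  obtain ⟨f, rfl⟩ := hP
  have h := rank_zero_iff_forall_zero.mp ModularForm.levelOne_weight_two_rank_zero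
    (ModularForm.mcast (show ((2 : ℕ) : ℤ) = 2 by norm_num) f)
  rw [ModularForm.mcast_eq_zero_iff] at h
  rw [h]
  exact (ModularForm.qExpansion_eq_zero_iff one_pos one_mem_strictPeriods_SL _).mpr rfl

/-- Division by `Δ`: a level-one `q`-expansion without constant term is `X * T₁ * P'` with `P'`
of weight `k - 12`. -/
theorem IsQ.exists_div {k : ℕ} {P : PowerSeries ℂ} (hP : IsQ k P) (h0 : P.coeff 0 = 0) :
    ∃ P' : PowerSeries ℂ, (12 ≤ k → IsQ (k - 12) P') ∧ (k < 12 → P' = 0) ∧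
      P = PowerSeries.X * toC tau1Z * P' := by
  obtain ⟨f, rfl⟩ := hP
  have h := ModularForm.qExpansion_eq_qExpansion_discriminant_mul f h0
  rw [S22.H45.qExpansion_discriminant_eq_X_mul] at h
  refine ⟨qExpansion 1 (CuspForm.discriminantEquiv (f.toCuspForm h0)), ?_, ?_, h⟩
  · intro hk
    refine ⟨ModularForm.mcast (by push_cast [Nat.cast_sub hk]; ring)
      (CuspForm.discriminantEquiv (f.toCuspForm h0)), ?_⟩
    rw [ModularForm.coe_mcast]
  · intro hk
    have h1 : ((CuspForm.discriminantEquiv (f.toCuspForm h0) : ModularForm 𝒮ℒ ((k : ℤ) - 12)) :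
        ℍ → ℂ) = 0 :=
      ModularFormClass.levelOne_neg_weight_eq_zero (by omega) _
    have h2 : (CuspForm.discriminantEquiv (f.toCuspForm h0) : ModularForm 𝒮ℒ ((k : ℤ) - 12)) = 0 :=
      DFunLike.coe_injective h1
    exact (ModularForm.qExpansion_eq_zero_iff one_pos one_mem_strictPeriods_SL _).mpr h2

/-! ### Integral data -/

theorem constantCoeff_e4Z : PowerSeries.constantCoeff e4Z = 1 := by
  simp [e4Z, S22.H45.sigSer]

theorem constantCoeff_e6Z : PowerSeries.constantCoeff e6Z = 1 := by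
  simp [e6Z, S22.H45.sigSer]

/-- `E₄³ - E₆² = 1728 Δ` for the integral `q`-series. -/
theorem e4Z_cube_sub_e6Z_sq : e4Z ^ 3 - e6Z ^ 2 = 1728 * (PowerSeries.X * tau1Z) := by
  rw [e4Z, e6Z, tau1Z, S22.H45.tauSer_spec, S22.H45.tauSer_eq]

/-- The normal monomial of weight `k` (`k` even, `k ≠ 2`): `E₄^(k/4)` or `E₄^((k-6)/4) E₆`. -/
noncomputable def monoZ (k : ℕ) : PowerSeries ℤ :=
  if k % 4 = 0 then e4Z ^ (k / 4) else e4Z ^ ((k - 6) / 4) * e6Z

theorem constantCoeff_monoZ (k : ℕ) : PowerSeries.constantCoeff (monoZ k) = 1 := by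
  rw [monoZ]
  split_ifs <;> simp [constantCoeff_e4Z, constantCoeff_e6Z]

theorem coeff_zero_toC_monoZ (k : ℕ) : (toC (monoZ k)).coeff 0 = 1 := by
  rw [PowerSeries.coeff_map, PowerSeries.coeff_zero_eq_constantCoeff_apply, constantCoeff_monoZ]
  simp

theorem isQ_monoZ {k : ℕ} (hk : Even k) (hk2 : k ≠ 2) : IsQ k (toC (monoZ k)) := by
  rw [monoZ]
  split_ifs with h
  · rw [toC, map_pow]
    exact (isQ_e4.pow (k / 4)).congr (by omega)
  · rw [toC, map_mul, map_pow]
    obtain ⟨m, hm⟩ := hk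
    exact ((isQ_e4.pow ((k - 6) / 4)).mul isQ_e6).congr (by omega)

/-- The monomial `E₄^a E₆^b` is a level-one `q`-expansion of weight `4a + 6b`. -/
theorem isQ_e4_pow_mul_e6_pow (a b : ℕ) : IsQ (4 * a + 6 * b) (toC e4Z ^ a * toC e6Z ^ b) :=
  ((isQ_e4.pow a).mul (isQ_e6.pow b)).congr (by ring)

/-- **Normal form step.** `P = c • M_k + Δ * P'` with `P'` of weight `k - 12`. -/
theorem IsQ.exists_decomp {k : ℕ} {P : PowerSeries ℂ} (hP : IsQ k P) (hk : Even k)
    (hk2 : k ≠ 2) :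
    ∃ P' : PowerSeries ℂ, (12 ≤ k → IsQ (k - 12) P') ∧ (k < 12 → P' = 0) ∧
      P = PowerSeries.C (P.coeff 0) * toC (monoZ k) + PowerSeries.X * toC tau1Z * P' := by
  have h1 : IsQ k (P - PowerSeries.C (P.coeff 0) * toC (monoZ k)) :=
    hP.sub ((isQ_monoZ hk hk2).C_mul _)
  have h0 : (P - PowerSeries.C (P.coeff 0) * toC (monoZ k)).coeff 0 = 0 := by
    rw [map_sub, PowerSeries.coeff_C_mul, coeff_zero_toC_monoZ, mul_one, sub_self]
  obtain ⟨P', h12, hlt, hP'⟩ := h1.exists_div h0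
  exact ⟨P', h12, hlt, by rw [← hP']; ring⟩

/-! ### Integrality / Sturm bound with values in an additive subgroup -/

theorem coeff_toC_mul_mem (A : AddSubgroup ℂ) (S : PowerSeries ℤ) (P : PowerSeries ℂ) (n : ℕ)
    (h : ∀ j ≤ n, P.coeff j ∈ A) : (toC S * P).coeff n ∈ A := by
  rw [PowerSeries.coeff_mul]
  refine A.sum_mem fun x hx => ?_
  rw [PowerSeries.coeff_map, eq_intCast, ← zsmul_eq_mul]
  have h2 : x.1 + x.2 = n := Finset.HasAntidiagonal.mem_antidiagonal.mp hx
  exact A.zsmul_mem (h _ (by omega)) _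

theorem coeff_C_mul_toC_mem (A : AddSubgroup ℂ) (S : PowerSeries ℤ) {c : ℂ} (hc : c ∈ A)
    (n : ℕ) : (PowerSeries.C c * toC S).coeff n ∈ A := by
  rw [PowerSeries.coeff_C_mul, PowerSeries.coeff_map, eq_intCast, mul_comm, ← zsmul_eq_mul]
  exact A.zsmul_mem hc _

/-- The inverse of `Δ / q` in `ℤ⟦X⟧`. -/
noncomputable def invTauZ : PowerSeries ℤ := PowerSeries.invOfUnit tau1Z 1

theorem tau1Z_mul_invTauZ : tau1Z * invTauZ = 1 :=
  PowerSeries.mul_invOfUnit _ _ (by rw [constantCoeff_tau1Z]; rfl)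

theorem toC_invTauZ_mul_toC_tau1Z : toC invTauZ * toC tau1Z = 1 := by
  rw [toC, toC, ← map_mul, mul_comm, tau1Z_mul_invTauZ, map_one]

/-- Drop the constant term and divide by `X`. -/
noncomputable def shift (S : PowerSeries ℂ) : PowerSeries ℂ :=
  PowerSeries.mk fun n => S.coeff (n + 1)

@[simp] theorem coeff_shift (S : PowerSeries ℂ) (n : ℕ) : (shift S).coeff n = S.coeff (n + 1) := by
  rw [shift, PowerSeries.coeff_mk]

theorem shift_X_mul (S : PowerSeries ℂ) : shift (PowerSeries.X * S) = S := by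
  ext n
  rw [coeff_shift, PowerSeries.coeff_succ_X_mul]

/-- Division by `Δ` on power series (meaningful on series without constant term). -/
noncomputable def divΔ (S : PowerSeries ℂ) : PowerSeries ℂ := toC invTauZ * shift S

theorem divΔ_mul (P : PowerSeries ℂ) : divΔ (PowerSeries.X * toC tau1Z * P) = P := by
  rw [divΔ, mul_assoc, shift_X_mul, ← mul_assoc, toC_invTauZ_mul_toC_tau1Z, one_mul]

theorem shift_add (S T : PowerSeries ℂ) : shift (S + T) = shift S + shift T := by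
  ext n
  rw [map_add, coeff_shift, coeff_shift, coeff_shift, map_add]

theorem shift_C_mul (c : ℂ) (S : PowerSeries ℂ) : shift (PowerSeries.C c * S) =
    PowerSeries.C c * shift S := by
  ext n
  rw [PowerSeries.coeff_C_mul, coeff_shift, coeff_shift, PowerSeries.coeff_C_mul]

theorem shift_zero : shift 0 = 0 := by
  ext n
  rw [coeff_shift, map_zero, map_zero]

theorem divΔ_add (S T : PowerSeries ℂ) : divΔ (S + T) = divΔ S + divΔ T := by
  rw [divΔ, divΔ, divΔ, shift_add, mul_add]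

theorem divΔ_C_mul (c : ℂ) (S : PowerSeries ℂ) : divΔ (PowerSeries.C c * S) =
    PowerSeries.C c * divΔ S := by
  rw [divΔ, divΔ, shift_C_mul, mul_left_comm]

theorem divΔ_zero : divΔ 0 = 0 := by
  rw [divΔ, shift_zero, mul_zero]

theorem coeff_divΔ_mem (A : AddSubgroup ℂ) (S : PowerSeries ℂ) (n : ℕ)
    (h : ∀ j ≤ n + 1, S.coeff j ∈ A) : (divΔ S).coeff n ∈ A := by
  refine coeff_toC_mul_mem A _ _ n fun j hj => ?_
  rw [coeff_shift]
  exact h _ (by omega)

theorem coeff_X_tau_mul_mem (A : AddSubgroup ℂ) (P : PowerSeries ℂ) (n : ℕ)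
    (h : ∀ j < n, P.coeff j ∈ A) : (PowerSeries.X * toC tau1Z * P).coeff n ∈ A := by
  rw [mul_assoc]
  rcases n with _ | n
  · simp
  · rw [PowerSeries.coeff_succ_X_mul]
    exact coeff_toC_mul_mem A _ _ n fun j hj => h j (by omega)

/-- **Sturm bound / `q`-expansion principle at level one, with values in an additive subgroup.**
If the coefficients `a_n`, `n ≤ k / 12`, of a level-one form of weight `k` lie in an additive
subgroup `A ⊆ ℂ`, then all coefficients lie in `A`. (`A = 0`: Sturm; `A = R` a subring: the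
`q`-expansion principle; `A = x R`: Sturm modulo `x`.) -/
theorem IsQ.coeff_mem (A : AddSubgroup ℂ) : ∀ (k : ℕ) {P : PowerSeries ℂ}, IsQ k P →
    (∀ n ≤ k / 12, P.coeff n ∈ A) → ∀ n, P.coeff n ∈ A := by
  intro k
  induction k using Nat.strong_induction_on with
  | _ k ih =>
    intro P hP h n
    rcases Nat.even_or_odd k with hk | hk
    swap
    · rw [hP.eq_zero_of_odd hk]
      simp
    by_cases hk2 : k = 2
    · subst hk2
      rw [hP.eq_zero_of_two]
      simp
    obtain ⟨P', h12, hlt, hP'⟩ := hP.exists_decomp hk hk2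
    have hc : P.coeff 0 ∈ A := h 0 (Nat.zero_le _)
    have hS : ∀ j ≤ k / 12, (P - PowerSeries.C (P.coeff 0) * toC (monoZ k)).coeff j ∈ A := by
      intro j hj
      rw [map_sub]
      exact A.sub_mem (h j hj) (coeff_C_mul_toC_mem A _ hc j)
    have hP'mem : ∀ j, P'.coeff j ∈ A := by
      rcases lt_or_ge k 12 with hk12 | hk12
      · rw [hlt hk12]
        simp
      · refine ih (k - 12) (by omega) (h12 hk12) fun j hj => ?_
        have hdiv : P' = divΔ (P - PowerSeries.C (P.coeff 0) * toC (monoZ k)) := by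
          rw [← divΔ_mul P']
          congr 1
          rw [eq_sub_iff_add_eq, add_comm]
          exact hP'.symm
        rw [hdiv]
        exact coeff_divΔ_mem A _ j fun i hi => hS i (by omega)
    rw [hP', map_add]
    exact A.add_mem (coeff_C_mul_toC_mem A _ hc n) (coeff_X_tau_mul_mem A P' n fun j _ => hP'mem j)

/-- Form version of `IsQ.coeff_mem`. -/
theorem coeff_mem_of_forall_le (A : AddSubgroup ℂ) {k : ℕ} (f : ModularForm 𝒮ℒ (k : ℤ))
    (h : ∀ n ≤ k / 12, (qExpansion 1 f).coeff n ∈ A) (n : ℕ) : (qExpansion 1 f).coeff n ∈ A :=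
  IsQ.coeff_mem A k ⟨f, rfl⟩ h n

end Fermat.Agent.S16.H33
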